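import Mathlib

/-!
# S16 / WP U4 (helper373): the final 2-adic contradiction
-/

set_option autoImplicit false

namespace Fermat.Agent.S16.H373

variable {K : Type*} [Field K] [CharZero K]

/-- The final valuation argument: `2^(k+1) y = 16^j z - s^(2j) (1+p) (-27)^j` with
`p + 1 = 2^k m`, `m, s` odd, `2^k = 2 j`, is impossible if `P y`, `P z` are integral for an odd
natural number `P` and `2` is not invertible in the subring `O` of integral elements. -/
theorem final_contra (O : Subring K) (h2O : (2 : K)⁻¹ ∉ O) (k j m p P : ℕ) (s : ℤ) (hs : Odd s)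
    (hm : Odd m) (hP : Odd P) (hj : 2 ^ k = 2 * j) (hp : p + 1 = 2 ^ k * m)
    (y z : K) (hy : (P : K) * y ∈ O) (hz : (P : K) * z ∈ O) (A B : K)
    (h1 : (2 : K) ^ (k + 1) * y = A - B) (h2 : A = 16 ^ j * z)
    (h3 : (8 : K) ^ (2 * j) * B = (s : K) ^ (2 * j) * (1 + p) * (-1728) ^ j) : False := by
  have h2K : (2 : K) ≠ 0 := two_ne_zero
  -- `B = s^(2j) (1+p) (-27)^j`
  have hB : B = (s : K) ^ (2 * j) * (1 + p) * (-27) ^ j := by
    have h64 : (8 : K) ^ (2 * j) = 64 ^ j := by rw [pow_mul]; norm_num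
    have h1728 : (-1728 : K) ^ j = (-27) ^ j * 64 ^ j := by rw [← mul_pow]; norm_num
    have hne : (64 : K) ^ j ≠ 0 := pow_ne_zero _ (by norm_num)
    rw [h64, h1728] at h3
    apply mul_left_cancel₀ hne
    linear_combination h3
  -- `16^j = 2^(k+1) * 2^e`
  have hlt : k + 1 < 2 ^ (k + 1) := Nat.lt_two_pow_self
  have h4j : 4 * j = 2 ^ (k + 1) := by rw [pow_succ]; omega
  obtain ⟨e, he⟩ : ∃ e, 4 * j = (k + 1) + (e + 1) := ⟨4 * j - (k + 1) - 1, by omega⟩
  have h16 : (16 : K) ^ j = 2 ^ (k + 1) * (2 * 2 ^ e) := by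
    have : (16 : K) = 2 ^ 4 := by norm_num
    rw [this, ← pow_mul, he, pow_add, pow_succ]
    ring
  -- the odd integer `N`
  have hN : Odd ((P : ℤ) * (s ^ (2 * j) * (m : ℤ) * (-27) ^ j)) := by
    refine Odd.mul (by exact_mod_cast hP) (Odd.mul (Odd.mul (hs.pow) ?_) (Odd.pow ?_))
    · exact_mod_cast hm
    · decide
  obtain ⟨N', hN'⟩ := hN
  have hNK : (P : K) * ((s : K) ^ (2 * j) * (m : K) * (-27) ^ j) = 2 * (N' : K) + 1 := by
    have := congrArg (Int.cast : ℤ → K) hN'
    push_cast at this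
    exact this
  have hpK : (1 : K) + p = 2 ^ k * m := by
    have := congrArg (Nat.cast : ℕ → K) hp
    push_cast at this
    linear_combination this
  have hk : (2 : K) ^ k ≠ 0 := pow_ne_zero _ h2K
  -- divide by `2^k`
  have key : 2 * y = 2 * (2 * 2 ^ e) * z - ((s : K) ^ (2 * j) * (m : K) * (-27) ^ j) := by
    apply mul_left_cancel₀ hk
    have h1' := h1
    rw [h2, hB, h16, hpK, pow_succ] at h1'
    linear_combination h1'
  have hinv : (2 : K)⁻¹ = 2 * 2 ^ e * ((P : K) * z) - (P : K) * y - N' := by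
    rw [inv_eq_one_div, eq_comm, eq_div_iff h2K]
    linear_combination (-(P : K)) * key + hNK
  apply h2O
  rw [hinv]
  exact O.sub_mem (O.sub_mem (O.mul_mem (O.mul_mem (ofNat_mem O 2) (O.pow_mem (ofNat_mem O 2) e)) hz)
    hy) (intCast_mem O N')

end Fermat.Agent.S16.H373
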