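import Fermat.Agent.S16.H373.Core
import Fermat.Agent.S16.H373.Arith

/-!
# S16 / WP U4 (helper373): the abstract core theorem `u4_core`
-/

set_option autoImplicit false
set_option linter.unusedSectionVars false

namespace Fermat.Agent.S16.H373

open PowerSeries

variable {K : Type*} [Field K] [CharZero K]

/-- Pairs with integral components. -/
noncomputable def intPair (O : Subring K) : Subring (Pair K) := (intSeries O).prod (intSeries O)

theorem mem_intPair {O : Subring K} {x : Pair K} :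
    x ∈ intPair O ↔ x.1 ∈ intSeries O ∧ x.2 ∈ intSeries O := Subring.mem_prod

/-- `p^(k-1) Tr x = p^(k-1) x₁ + U_p x₂` is integral for integral pairs `x`. -/
theorem pow_smul_tr_mem_intSeries {O : Subring K} {p : ℕ} (hp : p ≠ 0) {k : ℕ} (hk : 1 ≤ k)
    {x : Pair K} (hx : x ∈ intPair O) :
    ((p ^ (k - 1) : ℕ) : K) • tr p k x ∈ intSeries O := by
  have hpK : (p : K) ≠ 0 := Nat.cast_ne_zero.2 hp
  obtain ⟨k', rfl⟩ : ∃ k', k = k' + 1 := ⟨k - 1, by omega⟩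
  rw [tr_apply, smul_add, smul_smul, Nat.add_sub_cancel]
  have h1 : ((p ^ k' : ℕ) : K) * ((p : K) * ((p : K)⁻¹) ^ (k' + 1)) = 1 := by
    push_cast
    rw [← mul_assoc, ← pow_succ, ← mul_pow, mul_inv_cancel₀ hpK, one_pow]
  rw [h1, one_smul]
  refine (intSeries O).add_mem (smul_mem_intSeries (natCast_mem O _) (mem_intPair.1 hx).1) ?_
  exact opU_mem_intSeries p (mem_intPair.1 hx).2

theorem opU_ofNat_mul (p : ℕ) (n : ℕ) [n.AtLeastTwo] (F : PowerSeries K) :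
    opU p ((OfNat.ofNat n : PowerSeries K) * F) = (OfNat.ofNat n : PowerSeries K) * opU p F := by
  have h : ∀ F : PowerSeries K, (OfNat.ofNat n : PowerSeries K) * F = (n : K) • F := by
    intro F
    rw [Nat.cast_smul_eq_nsmul, nsmul_eq_mul]
    congr 1
  rw [h, h, map_smul]

theorem natCast_pow_smul (p k : ℕ) (F : PowerSeries K) :
    ((p : K) ^ k) • F = (p : PowerSeries K) ^ k * F := by
  rw [← Nat.cast_pow, Nat.cast_smul_eq_nsmul, nsmul_eq_mul, Nat.cast_pow]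

namespace LevelData

variable {p : ℕ} {hp : p ≠ 0} {O : Subring K} (D : LevelData K p hp O)

theorem ev_sub (k : ℕ) (A B : PowerSeries K) (hA : A ∈ D.L k) (hB : B ∈ D.L k) :
    D.ev k (A - B) = D.ev k A - D.ev k B := by
  have h := D.ev_add k (A - B) B ((D.L k).sub_mem hA hB) hB
  rw [sub_add_cancel] at h
  rw [h]
  ring

/-- `Tr (e₄ * Y) = E₄ * Tr Y` and its `ev` vanishes. -/
theorem ev_tr_e4_mul {k : ℕ} {Y : Pair K} (hY : Y ∈ D.Mp k) :
    tr p (4 + k) (lift p hp 4 D.E₄ * Y) ∈ D.L (4 + k) ∧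
      D.ev (4 + k) (tr p (4 + k) (lift p hp 4 D.E₄ * Y)) = 0 := by
  refine ⟨D.tr_mem (D.mul_mem (D.lift_mem D.E₄_mem) hY), ?_⟩
  rw [tr_lift_mul, add_comm 4 k]
  exact D.ev_E₄_mul k _ (D.tr_mem hY)

theorem ev_tr_e4_mul' {k N : ℕ} (hN : 4 + k = N) {Y : Pair K} (hY : Y ∈ D.Mp k) :
    tr p N (lift p hp 4 D.E₄ * Y) ∈ D.L N ∧
      D.ev N (tr p N (lift p hp 4 D.E₄ * Y)) = 0 := by
  subst hN
  exact D.ev_tr_e4_mul hY

theorem ev_nsmul (k n : ℕ) (A : PowerSeries K) (hA : A ∈ D.L k) :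
    D.ev k (n • A) = n * D.ev k A := by
  rw [← Nat.cast_smul_eq_nsmul K n A, D.ev_smul k _ A hA]

theorem ev_zsmul (k : ℕ) (n : ℤ) (A : PowerSeries K) (hA : A ∈ D.L k) :
    D.ev k (n • A) = n * D.ev k A := by
  rw [← Int.cast_smul_eq_zsmul K n A, D.ev_smul k _ A hA]

/-- `E₆ ^ n ∈ L (6 n)`. -/
theorem E₆_pow_mem (n : ℕ) : D.E₆ ^ n ∈ D.L (6 * n) := by
  have h1 : lift p hp 6 D.E₆ ^ n ∈ D.Mp (6 * n) := D.pow_mem (D.lift_mem D.E₆_mem) n
  have h2 := D.tr_mem h1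
  rw [lift_pow, tr_lift] at h2
  have hne : (1 : K) + p ≠ 0 := by
    have : ((1 + p : ℕ) : K) ≠ 0 := Nat.cast_ne_zero.2 (by omega)
    simpa using this
  have e : D.E₆ ^ n = ((1 : K) + p)⁻¹ • (((1 : K) + p) • D.E₆ ^ n) := by
    rw [smul_smul, inv_mul_cancel₀ hne, one_smul]
  rw [e]
  exact (D.L (6 * n)).smul_mem _ h2

end LevelData

/-- The pairs `μ = (g² - s² e₄)/16`, `K₁ = (g e₄ - s e₆)/8` are integral, and
`g μ ≡ K₁ mod 2`. -/
theorem exists_pairs {p : ℕ} {hp : p ≠ 0} {O : Subring K} (D : LevelData K p hp O)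
    (h8 : 8 ∣ p + 1) (s : ℤ) (hs : Odd s) (G H : PowerSeries K) (hH : H ∈ intSeries O)
    (hG : G = (s : PowerSeries K) + 8 * H) :
    ((G, -(p : PowerSeries K) * opU p G) : Pair K) ∈ intPair O ∧
    ∃ μ K1 x : Pair K, μ ∈ intPair O ∧ K1 ∈ intPair O ∧ x ∈ intPair O ∧
      ((G, -(p : PowerSeries K) * opU p G) : Pair K) ^ 2
        - (s : Pair K) ^ 2 * lift p hp 4 D.E₄ = 16 * μ ∧
      ((G, -(p : PowerSeries K) * opU p G) : Pair K) * lift p hp 4 D.E₄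
        - (s : Pair K) * lift p hp 6 D.E₆ = 8 * K1 ∧
      ((G, -(p : PowerSeries K) * opU p G) : Pair K) * μ - K1 = 2 * x := by
  obtain ⟨w, hw⟩ := h8
  obtain ⟨a, ha⟩ := hs
  obtain ⟨c, hc⟩ := Int.even_mul_succ_self a
  have hs2 : s ^ 2 = 1 + 8 * c := by rw [ha]; linear_combination 4 * hc
  obtain ⟨m₁, κ₁, x₁, hm₁, hκ₁, hx₁, e1, e2, e3⟩ :=
    comp_lemma (intSeries O) (-1) 0 s c (by norm_num) hs2 H D.S₃ D.S₅ D.R hH D.S₅_int D.R_int
      D.S₃_eq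
  have hS₃' : expand p hp D.S₃ = expand p hp D.S₅ + 2 * expand p hp D.R := by
    rw [D.S₃_eq, map_add, map_mul, map_ofNat]
  obtain ⟨m₂, κ₂, x₂, hm₂, hκ₂, hx₂, f1, f2, f3⟩ :=
    comp_lemma (intSeries O) (p : ℤ) (w : ℤ) s c (by exact_mod_cast hw) hs2 (opU p H)
      (expand p hp D.S₃) (expand p hp D.S₅) (expand p hp D.R) (opU_mem_intSeries p hH)
      (expand_mem_intSeries p hp D.S₅_int) (expand_mem_intSeries p hp D.R_int) hS₃'
  have hUG : opU p G = (s : PowerSeries K) + 8 * opU p H := by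
    rw [hG, map_add, opU_intCast p hp, opU_ofNat_mul]
  have hGint : G ∈ intSeries O := by
    rw [hG]
    exact (intSeries O).add_mem (intCast_mem _ s) ((intSeries O).mul_mem (ofNat_mem _ 8) hH)
  have hE4' : (p : K) ^ 4 • expand p hp D.E₄
      = (p : PowerSeries K) ^ 4 * (1 + 240 * expand p hp D.S₃) := by
    rw [natCast_pow_smul, D.E₄_eq, map_add, map_one, map_mul, map_ofNat]
  have hE6' : (p : K) ^ 6 • expand p hp D.E₆
      = (p : PowerSeries K) ^ 6 * (1 - 504 * expand p hp D.S₅) := by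
    rw [natCast_pow_smul, D.E₆_eq, map_sub, map_one, map_mul, map_ofNat]
  push_cast at e1 e2 e3 f1 f2 f3
  refine ⟨?_, (m₁, m₂), (κ₁, κ₂), (x₁, x₂), mem_intPair.2 ⟨hm₁, hm₂⟩, mem_intPair.2 ⟨hκ₁, hκ₂⟩,
    mem_intPair.2 ⟨hx₁, hx₂⟩, ?_, ?_, ?_⟩
  · refine mem_intPair.2 ⟨hGint, ?_⟩
    exact (intSeries O).mul_mem ((intSeries O).neg_mem (natCast_mem _ p))
      (opU_mem_intSeries p hGint)
  · refine Prod.ext ?_ ?_
    · simp only [lift, Prod.fst_sub, Prod.fst_mul, Prod.pow_fst, Prod.fst_intCast,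
        Prod.fst_ofNat]
      rw [hG, D.E₄_eq]
      linear_combination e1
    · simp only [lift, Prod.snd_sub, Prod.snd_mul, Prod.pow_snd, Prod.snd_intCast,
        Prod.snd_ofNat]
      rw [hE4', hUG]
      linear_combination f1
  · refine Prod.ext ?_ ?_
    · simp only [lift, Prod.fst_sub, Prod.fst_mul, Prod.fst_intCast, Prod.fst_ofNat]
      rw [hG, D.E₄_eq, D.E₆_eq]
      linear_combination e2
    · simp only [lift, Prod.snd_sub, Prod.snd_mul, Prod.snd_intCast, Prod.snd_ofNat]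
      rw [hE4', hE6', hUG]
      linear_combination f2
  · refine Prod.ext ?_ ?_
    · simp only [Prod.fst_sub, Prod.fst_mul, Prod.fst_ofNat]
      rw [hG]
      linear_combination e3
    · simp only [Prod.snd_sub, Prod.snd_mul, Prod.snd_ofNat]
      rw [hUG]
      linear_combination f3

/-- **U4, abstract core.** With `8 ∣ p + 1` there is no weight-2 pair `(G, -p U_p G)` with
`G ≡ s mod 8`, `s` odd. -/
theorem u4_core {p : ℕ} {hp : p ≠ 0} {O : Subring K} (D : LevelData K p hp O)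
    (h8 : 8 ∣ p + 1) (h2O : (2 : K)⁻¹ ∉ O)
    (s : ℤ) (hs : Odd s) (G H : PowerSeries K) (hH : H ∈ intSeries O)
    (hG : G = (s : PowerSeries K) + 8 * H)
    (hmem : ((G, -(p : PowerSeries K) * opU p G) : Pair K) ∈ D.Mp 2) : False := by
  have hpodd : Odd p := by
    obtain ⟨w, hw⟩ := h8
    rcases Nat.even_or_odd p with he | ho
    · obtain ⟨t, ht⟩ := he
      omega
    · exact ho
  obtain ⟨hgint, μ, K1, x, hμ, hK1, hx, eμ, eK, ex⟩ := exists_pairs D h8 s hs G H hH hG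
  set g : Pair K := (G, -(p : PowerSeries K) * opU p G) with hg
  set e4 : Pair K := lift p hp 4 D.E₄ with he4
  set e6 : Pair K := lift p hp 6 D.E₆ with he6
  have he4m : e4 ∈ D.Mp 4 := D.lift_mem D.E₄_mem
  have he6m : e6 ∈ D.Mp 6 := D.lift_mem D.E₆_mem
  have hg2m : g ^ 2 ∈ D.Mp 4 := D.Mp_cast (D.pow_mem hmem 2) rfl
  -- membership of `μ` and `K1`
  have h16μ : (16 : Pair K) * μ ∈ D.Mp 4 := by
    rw [← eμ]
    refine (D.Mp 4).sub_mem hg2m ?_
    rw [← Int.cast_pow]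
    exact D.intCast_mul_mem he4m _
  have hμm : μ ∈ D.Mp 4 := by
    apply mem_of_natCast_mul_mem (D.Mp 4) (n := 16) (by norm_num)
    rw [nsmul_eq_mul]
    exact_mod_cast h16μ
  have h8K : (8 : Pair K) * K1 ∈ D.Mp 6 := by
    rw [← eK]
    exact (D.Mp 6).sub_mem (D.Mp_cast (D.mul_mem hmem he4m) rfl) (D.intCast_mul_mem he6m _)
  have hK1m : K1 ∈ D.Mp 6 := by
    apply mem_of_natCast_mul_mem (D.Mp 6) (n := 8) (by norm_num)
    rw [nsmul_eq_mul]
    exact_mod_cast h8K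
  have hgμm : g * μ ∈ D.Mp 6 := D.Mp_cast (D.mul_mem hmem hμm) rfl
  -- the 2-adic valuation of `p + 1`
  obtain ⟨k, m, hm, hpm⟩ := Nat.exists_eq_two_pow_mul_odd (n := p + 1) (by omega)
  have hk1 : 1 ≤ k := by
    rcases Nat.eq_zero_or_pos k with h0 | h0
    · exfalso
      subst h0
      rw [pow_zero, one_mul] at hpm
      obtain ⟨w, hw⟩ := h8
      rw [hpm] at hw
      obtain ⟨t, ht⟩ := hm
      omega
    · exact h0
  obtain ⟨j, hj⟩ : ∃ j, 2 ^ k = 2 * j := ⟨2 ^ (k - 1), by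
    obtain ⟨k', rfl⟩ : ∃ k', k = k' + 1 := ⟨k - 1, by omega⟩
    rw [pow_succ, Nat.add_sub_cancel, mul_comm]⟩
  have hj1 : 1 ≤ j := by
    rcases Nat.eq_zero_or_pos j with h0 | h0
    · subst h0
      have := pow_pos (show 0 < 2 by norm_num) k
      omega
    · exact h0
  -- the element `d = ((g μ)^M - K1^M) / 2^(k+1)`
  obtain ⟨d, hd, ed⟩ := pow_two_pow_sub (intPair O) hK1 hx ex k
  rw [hj] at ed
  have hAm : (g * μ) ^ (2 * j) ∈ D.Mp (12 * j) :=
    D.Mp_cast (D.pow_mem hgμm (2 * j)) (by ring)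
  have hBm : K1 ^ (2 * j) ∈ D.Mp (12 * j) :=
    D.Mp_cast (D.pow_mem hK1m (2 * j)) (by ring)
  have e2k : (2 : Pair K) ^ (k + 1) * d = (2 ^ (k + 1) : ℕ) • d := by
    rw [nsmul_eq_mul]
    push_cast
    rfl
  have hdm : d ∈ D.Mp (12 * j) := by
    apply mem_of_natCast_mul_mem (D.Mp (12 * j)) (n := 2 ^ (k + 1)) (by positivity)
    rw [← e2k, ← ed]
    exact (D.Mp (12 * j)).sub_mem hAm hBm
  have hT : tr p (12 * j) d ∈ D.L (12 * j) := D.tr_mem hdm
  have h12 : 1 ≤ 12 * j := by omega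
  have hy : ((p ^ (12 * j - 1) : ℕ) : K) * D.ev (12 * j) (tr p (12 * j) d) ∈ O := by
    rw [← D.ev_smul _ _ _ hT]
    exact D.ev_int _ _ ((D.L _).smul_mem _ hT) (pow_smul_tr_mem_intSeries hp h12 hd)
  -- (e1)
  have e1 : (2 : K) ^ (k + 1) * D.ev (12 * j) (tr p (12 * j) d)
      = D.ev (12 * j) (tr p (12 * j) ((g * μ) ^ (2 * j)))
        - D.ev (12 * j) (tr p (12 * j) (K1 ^ (2 * j))) := by
    rw [← D.ev_sub _ _ _ (D.tr_mem hAm) (D.tr_mem hBm), ← map_sub, ed, e2k, map_nsmul,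
      D.ev_nsmul _ _ _ hT]
    push_cast
    rfl
  -- (e2)
  have e2 : ∃ z : K, ((p ^ (12 * j - 1) : ℕ) : K) * z ∈ O ∧
      D.ev (12 * j) (tr p (12 * j) ((g * μ) ^ (2 * j))) = 16 ^ j * z := by
    have hgeo := geom_sum₂_mul (g ^ 2) (16 * μ) j
    have hXY : g ^ 2 - 16 * μ = (s : Pair K) ^ 2 * e4 := by linear_combination eμ
    rw [hXY] at hgeo
    set Sg1 : Pair K := ∑ i ∈ Finset.range j, (g ^ 2) ^ i * (16 * μ) ^ (j - 1 - i) with hSg1e
    have hSgm : Sg1 ∈ D.Mp (4 * (j - 1)) :=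
      D.geom_mem hg2m (by exact_mod_cast D.natCast_mul_mem hμm 16) j
    set Y' : Pair K := (s : Pair K) ^ 2 * (Sg1 * μ ^ (2 * j)) with hY'
    have hY'm : Y' ∈ D.Mp (4 * (j - 1) + 4 * (2 * j)) := by
      rw [hY', ← Int.cast_pow]
      exact D.intCast_mul_mem (D.mul_mem hSgm (D.pow_mem hμm (2 * j))) _
    have hdecomp : (g * μ) ^ (2 * j) = (16 ^ j : ℕ) • μ ^ (3 * j) + e4 * Y' := by
      rw [nsmul_eq_mul]
      push_cast
      have h3 : μ ^ (3 * j) = μ ^ j * μ ^ (2 * j) := by rw [← pow_add]; congr 1; ring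
      rw [mul_pow, pow_mul g 2 j, h3, hY']
      linear_combination (-(μ ^ (2 * j))) * hgeo
    have hμ3m : μ ^ (3 * j) ∈ D.Mp (12 * j) := D.Mp_cast (D.pow_mem hμm (3 * j)) (by ring)
    have hμ3i : μ ^ (3 * j) ∈ intPair O := (intPair O).pow_mem hμ _
    obtain ⟨hL2, hev2⟩ := D.ev_tr_e4_mul' (N := 12 * j) (by omega) hY'm
    refine ⟨D.ev (12 * j) (tr p (12 * j) (μ ^ (3 * j))), ?_, ?_⟩
    · rw [← D.ev_smul _ _ _ (D.tr_mem hμ3m)]
      exact D.ev_int _ _ ((D.L _).smul_mem _ (D.tr_mem hμ3m))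
        (pow_smul_tr_mem_intSeries hp h12 hμ3i)
    rw [hdecomp, map_add, map_nsmul,
      D.ev_add _ _ _ ((D.L _).smul_of_tower_mem _ (D.tr_mem hμ3m)) hL2,
      hev2, add_zero, D.ev_nsmul _ _ _ (D.tr_mem hμ3m)]
    push_cast
    rfl
  -- (e3)
  have e3 : (8 : K) ^ (2 * j) * D.ev (12 * j) (tr p (12 * j) (K1 ^ (2 * j)))
      = (s : K) ^ (2 * j) * (1 + p) * (-1728) ^ j := by
    have hX2m : g * e4 - (s : Pair K) * e6 ∈ D.Mp 6 := by rw [eK]; exact h8K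
    have hY2m : -((s : Pair K) * e6) ∈ D.Mp 6 := (D.Mp 6).neg_mem (D.intCast_mul_mem he6m _)
    have hgeo := geom_sum₂_mul (g * e4 - (s : Pair K) * e6) (-((s : Pair K) * e6)) (2 * j)
    have hXY : g * e4 - (s : Pair K) * e6 - -((s : Pair K) * e6) = g * e4 := by ring
    rw [hXY] at hgeo
    set Sg2 : Pair K := ∑ i ∈ Finset.range (2 * j),
      (g * e4 - (s : Pair K) * e6) ^ i * (-((s : Pair K) * e6)) ^ (2 * j - 1 - i) with hSg2e
    have hSgm : Sg2 ∈ D.Mp (6 * (2 * j - 1)) := D.geom_mem hX2m hY2m (2 * j)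
    have hY''m : g * Sg2 ∈ D.Mp (2 + 6 * (2 * j - 1)) := D.mul_mem hmem hSgm
    have hpow : (-((s : Pair K) * e6)) ^ (2 * j)
        = ((s ^ (2 * j) : ℤ)) • lift p hp (12 * j) (D.E₆ ^ (2 * j)) := by
      rw [zsmul_eq_mul, Even.neg_pow ⟨j, by ring⟩, mul_pow, he6, lift_pow]
      push_cast
      congr 2
      ring
    have hdecomp : (2 ^ (3 * (2 * j)) : ℕ) • K1 ^ (2 * j)
        = ((s ^ (2 * j) : ℤ)) • lift p hp (12 * j) (D.E₆ ^ (2 * j)) + e4 * (g * Sg2) := by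
      rw [← hpow, nsmul_eq_mul]
      push_cast
      have h8 : ((2 : Pair K) ^ (3 * (2 * j))) * K1 ^ (2 * j) = (8 * K1) ^ (2 * j) := by
        rw [mul_pow, pow_mul]
        norm_num
      rw [h8, ← eK]
      linear_combination -hgeo
    obtain ⟨hL2, hev2⟩ := D.ev_tr_e4_mul' (N := 12 * j) (by omega) hY''m
    have hE6m : D.E₆ ^ (2 * j) ∈ D.L (12 * j) := D.L_cast (D.E₆_pow_mem (2 * j)) (by ring)
    have htr : D.ev (12 * j) (tr p (12 * j) ((2 ^ (3 * (2 * j)) : ℕ) • K1 ^ (2 * j)))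
        = D.ev (12 * j) (tr p (12 * j)
          (((s ^ (2 * j) : ℤ)) • lift p hp (12 * j) (D.E₆ ^ (2 * j)) + e4 * (g * Sg2))) := by
      rw [hdecomp]
    rw [map_nsmul, D.ev_nsmul _ _ _ (D.tr_mem hBm), map_add, map_zsmul, tr_lift,
      D.ev_add _ _ _ ((D.L _).smul_of_tower_mem _ ((D.L _).smul_mem _ hE6m)) hL2, hev2, add_zero,
      D.ev_zsmul _ _ _ ((D.L _).smul_mem _ hE6m), D.ev_smul _ _ _ hE6m, D.ev_E₆_pow] at htr
    have h8' : (8 : K) ^ (2 * j) = ((2 ^ (3 * (2 * j)) : ℕ) : K) := by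
      push_cast
      rw [pow_mul (2 : K) 3 (2 * j)]
      norm_num
    rw [h8', htr]
    push_cast
    ring
  obtain ⟨z, hz, e2⟩ := e2
  exact final_contra O h2O k j m p (p ^ (12 * j - 1)) s hs hm hpodd.pow hj hpm _ z hy hz _ _
    e1 e2 e3

end Fermat.Agent.S16.H373
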