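import Mathlib

/-!
# S16 / WP U4 (helper373): the 2-adic component algebra

Pure commutative algebra: in a commutative ring `A` with a subring `S` of "integral" elements,
for `γ = -π (s + 8 H)`, `ε₄ = π⁴ (1 + 240 S₃)`, `ε₆ = π⁶ (1 - 504 S₅)` with `π ≡ -1 mod 8`,
`s` odd and `S₃ ≡ S₅ mod 2`:
`γ² - s² ε₄ = 16 m`, `γ ε₄ - s ε₆ = 8 κ`, `γ m - κ = 2 x` with `m, κ, x` integral.
(The case `π = -1` is the component at the cusp `∞`, the case `π = p` the Fricke component.)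
-/

set_option autoImplicit false

namespace Fermat.Agent.S16.H373

variable {A : Type*} [CommRing A]

theorem comp_lemma (S : Subring A) (π w s c : ℤ) (hπ : π + 1 = 8 * w) (hs : s ^ 2 = 1 + 8 * c)
    (H S₃ S₅ R : A) (hH : H ∈ S) (hS₅ : S₅ ∈ S) (hR : R ∈ S) (hS₃ : S₃ = S₅ + 2 * R) :
    ∃ m κ x : A, m ∈ S ∧ κ ∈ S ∧ x ∈ S ∧
      (-(π : A) * (s + 8 * H)) ^ 2 - (s : A) ^ 2 * ((π : A) ^ 4 * (1 + 240 * S₃)) = 16 * m ∧
      (-(π : A) * (s + 8 * H)) * ((π : A) ^ 4 * (1 + 240 * S₃))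
        - (s : A) * ((π : A) ^ 6 * (1 - 504 * S₅)) = 8 * κ ∧
      (-(π : A) * (s + 8 * H)) * m - κ = 2 * x := by
  have hS₃m : S₃ ∈ S := by
    rw [hS₃]
    exact S.add_mem hS₅ (S.mul_mem (ofNat_mem S 2) hR)
  have hπA : (π : A) + 1 = 8 * (w : A) := by exact_mod_cast congrArg (Int.cast : ℤ → A) hπ
  have hsA : (s : A) ^ 2 = 1 + 8 * (c : A) := by exact_mod_cast congrArg (Int.cast : ℤ → A) hs
  set P : A := (π : A) with hP
  set W : A := (w : A) with hW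
  set σ : A := (s : A) with hσ
  set Cc : A := (c : A) with hCc
  have hPm : P ∈ S := intCast_mem S π
  have hWm : W ∈ S := intCast_mem S w
  have hσm : σ ∈ S := intCast_mem S s
  have hCm : Cc ∈ S := intCast_mem S c
  set U : A := W * (4 * W - 1) with hU
  have hUm : U ∈ S := S.mul_mem hWm (S.sub_mem (S.mul_mem (ofNat_mem S 4) hWm) S.one_mem)
  have hP2 : P ^ 2 = 1 + 16 * U := by
    have : P = 8 * W - 1 := by linear_combination hπA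
    rw [this, hU]
    ring
  set m₀ : A := σ * H + 4 * H ^ 2 - U * σ ^ 2 - 15 * σ ^ 2 * P ^ 2 * S₃ with hm₀
  have hm₀m : m₀ ∈ S := by
    rw [hm₀]
    refine S.sub_mem (S.sub_mem (S.add_mem (S.mul_mem hσm hH)
      (S.mul_mem (ofNat_mem S 4) (S.pow_mem hH 2))) (S.mul_mem hUm (S.pow_mem hσm 2))) ?_
    exact S.mul_mem (S.mul_mem (S.mul_mem (ofNat_mem S 15) (S.pow_mem hσm 2)) (S.pow_mem hPm 2))
      hS₃m
  set κ₀ : A := σ * W + H + 30 * σ * S₃ + 240 * H * S₃ - 63 * σ * P * S₅ with hκ₀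
  have hκ₀m : κ₀ ∈ S := by
    rw [hκ₀]
    refine S.sub_mem (S.add_mem (S.add_mem (S.add_mem (S.mul_mem hσm hWm) hH)
      (S.mul_mem (S.mul_mem (ofNat_mem S 30) hσm) hS₃m))
      (S.mul_mem (S.mul_mem (ofNat_mem S 240) hH) hS₃m)) ?_
    exact S.mul_mem (S.mul_mem (S.mul_mem (ofNat_mem S 63) hσm) hPm) hS₅
  set x : A := H * P ^ 3 * (8 * U - 4 * Cc) - 2 * P ^ 3 * σ * H ^ 2
      + σ * P ^ 3 * (2 * W ^ 2 + 4 * Cc * U + 8 * U * W)
      + P ^ 5 * σ * (39 * S₅ + 15 * R + 60 * Cc * S₅ + 120 * Cc * R - 252 * W * S₅)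
      - 4 * P ^ 3 * H * m₀ + P ^ 5 * (15 * σ * S₃ + 120 * H * S₃) with hx
  have hxm : x ∈ S := by
    rw [hx]
    have h2 : (2 : A) ∈ S := ofNat_mem S 2
    have h4 : (4 : A) ∈ S := ofNat_mem S 4
    have h8 : (8 : A) ∈ S := ofNat_mem S 8
    have h15 : (15 : A) ∈ S := ofNat_mem S 15
    have h39 : (39 : A) ∈ S := ofNat_mem S 39
    have h60 : (60 : A) ∈ S := ofNat_mem S 60
    have h120 : (120 : A) ∈ S := ofNat_mem S 120
    have h252 : (252 : A) ∈ S := ofNat_mem S 252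
    have hP3 : P ^ 3 ∈ S := S.pow_mem hPm 3
    have hP5 : P ^ 5 ∈ S := S.pow_mem hPm 5
    refine S.add_mem (S.sub_mem (S.add_mem (S.add_mem (S.sub_mem ?_ ?_) ?_) ?_) ?_) ?_
    · exact S.mul_mem (S.mul_mem hH hP3) (S.sub_mem (S.mul_mem h8 hUm) (S.mul_mem h4 hCm))
    · exact S.mul_mem (S.mul_mem (S.mul_mem h2 hP3) hσm) (S.pow_mem hH 2)
    · exact S.mul_mem (S.mul_mem hσm hP3) (S.add_mem (S.add_mem (S.mul_mem h2 (S.pow_mem hWm 2))
        (S.mul_mem (S.mul_mem h4 hCm) hUm)) (S.mul_mem (S.mul_mem h8 hUm) hWm))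
    · refine S.mul_mem (S.mul_mem hP5 hσm) (S.sub_mem (S.add_mem (S.add_mem (S.add_mem
        (S.mul_mem h39 hS₅) (S.mul_mem h15 hR)) (S.mul_mem (S.mul_mem h60 hCm) hS₅))
        (S.mul_mem (S.mul_mem h120 hCm) hR)) (S.mul_mem (S.mul_mem h252 hWm) hS₅))
    · exact S.mul_mem (S.mul_mem (S.mul_mem h4 hP3) hH) hm₀m
    · exact S.mul_mem hP5 (S.add_mem (S.mul_mem (S.mul_mem h15 hσm) hS₃m)
        (S.mul_mem (S.mul_mem h120 hH) hS₃m))
  refine ⟨P ^ 2 * m₀, -(P ^ 5 * κ₀), x, S.mul_mem (S.pow_mem hPm 2) hm₀m,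
    S.neg_mem (S.mul_mem (S.pow_mem hPm 5) hκ₀m), hxm, ?_, ?_, ?_⟩
  · rw [hm₀]
    linear_combination (-P ^ 2 * σ ^ 2) * hP2
  · rw [hκ₀]
    linear_combination (-P ^ 5 * σ) * hπA
  · have hPW : P = 8 * W - 1 := by linear_combination hπA
    have hUW : U + W = 4 * W ^ 2 := by rw [hU]; ring
    rw [hx, hm₀, hκ₀, hS₃]
    linear_combination (-H * P ^ 3 + σ * P ^ 3 * U + 15 * P ^ 5 * σ * (S₅ + 2 * R)) * hsA
      + (H * P ^ 3 + σ * P ^ 3 * W) * hP2 - 63 * P ^ 5 * σ * S₅ * hPW + σ * P ^ 3 * hUW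

/-- If `a ≡ b mod 2 S` then `a ^ (2 ^ k) ≡ b ^ (2 ^ k) mod 2 ^ (k + 1) S`. -/
theorem pow_two_pow_sub (S : Subring A) {a b x : A} (hb : b ∈ S) (hx : x ∈ S)
    (h : a - b = 2 * x) (k : ℕ) :
    ∃ y ∈ S, a ^ (2 ^ k) - b ^ (2 ^ k) = 2 ^ (k + 1) * y := by
  induction k with
  | zero => exact ⟨x, hx, by simpa using h⟩
  | succ k ih =>
    obtain ⟨y, hy, hk⟩ := ih
    refine ⟨y * (b ^ (2 ^ k) + 2 ^ k * y), ?_, ?_⟩
    · exact S.mul_mem hy (S.add_mem (S.pow_mem hb _)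
        (S.mul_mem (S.pow_mem (ofNat_mem S 2) _) hy))
    · have e : (2 : ℕ) ^ (k + 1) = 2 ^ k * 2 := by ring
      rw [e, pow_mul, pow_mul]
      have ha : a ^ (2 ^ k) = b ^ (2 ^ k) + 2 ^ (k + 1) * y := by linear_combination hk
      rw [ha]
      ring

end Fermat.Agent.S16.H373
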