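import Fermat.Agent.S16.H373.Series
import Fermat.Agent.S16.H373.CompAlg

/-!
# S16 / WP U4 (helper373): abstract core

`u4_core`: in an abstract "level `p` / level `1`" setting on `q`-expansions (pairs
`(F, F^)` of a form and its Fricke transform, trace `Tr F = F + p^(1-k) U_p F^` to level one,
evaluation functional `ev` on level-one forms which kills multiples of `E₄`), with
`8 ∣ p + 1`, there is NO weight-2 form `G` with `G ≡ s mod 8` (`s` odd) and `G^ = -p U_p G`.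
-/

set_option autoImplicit false

namespace Fermat.Agent.S16.H373

open PowerSeries

variable {K : Type*} [Field K]

/-- Pairs `(q-expansion of F, q-expansion of the Fricke transform F^)`. -/
abbrev Pair (K : Type*) [Field K] := PowerSeries K × PowerSeries K

/-- The trace to level one on pairs: `Tr (F, F^) = F + p^(1-k) U_p F^`. -/
noncomputable def tr (p k : ℕ) : Pair K →ₗ[K] PowerSeries K :=
  LinearMap.fst K _ _ + ((p : K) * ((p : K)⁻¹) ^ k) • ((opU p).comp (LinearMap.snd K _ _))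

theorem tr_apply (p k : ℕ) (x : Pair K) :
    tr p k x = x.1 + ((p : K) * ((p : K)⁻¹) ^ k) • opU p x.2 := rfl

/-- The pair attached to a level-one series of weight `k`: `(H, p^k V_p H)`. -/
noncomputable def lift (p : ℕ) (hp : p ≠ 0) (k : ℕ) (H : PowerSeries K) : Pair K :=
  (H, (p : K) ^ k • expand p hp H)

theorem lift_mul (p : ℕ) (hp : p ≠ 0) (k k' : ℕ) (H H' : PowerSeries K) :
    lift p hp k H * lift p hp k' H' = lift p hp (k + k') (H * H') := by
  refine Prod.ext rfl ?_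
  simp only [lift, Prod.snd_mul, map_mul, pow_add]
  rw [smul_mul_smul_comm]

theorem lift_one (p : ℕ) (hp : p ≠ 0) : lift p hp 0 (1 : PowerSeries K) = 1 := by
  refine Prod.ext rfl ?_
  simp [lift]

theorem lift_pow (p : ℕ) (hp : p ≠ 0) (k n : ℕ) (H : PowerSeries K) :
    lift p hp k H ^ n = lift p hp (k * n) (H ^ n) := by
  induction n with
  | zero => simp [lift_one]
  | succ n ih => rw [pow_succ, ih, lift_mul, pow_succ, Nat.mul_succ]

section CharZero

variable [CharZero K]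

theorem tr_lift_mul (p : ℕ) (hp : p ≠ 0) (k k' : ℕ) (H : PowerSeries K) (Y : Pair K) :
    tr p (k + k') (lift p hp k H * Y) = H * tr p k' Y := by
  have hpK : (p : K) ≠ 0 := Nat.cast_ne_zero.2 hp
  rw [tr_apply, tr_apply]
  simp only [lift, Prod.fst_mul, Prod.snd_mul]
  rw [smul_mul_assoc, map_smul, opU_expand_mul, mul_add, smul_smul, mul_smul_comm]
  congr 2
  have h : ((p : K)⁻¹) ^ (k + k') * (p : K) ^ k = ((p : K)⁻¹) ^ k' := by
    rw [pow_add, mul_comm (((p : K)⁻¹) ^ k), mul_assoc, ← mul_pow, inv_mul_cancel₀ hpK, one_pow,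
      mul_one]
  rw [mul_assoc, h]

theorem tr_lift (p : ℕ) (hp : p ≠ 0) (k : ℕ) (H : PowerSeries K) :
    tr p k (lift p hp k H) = ((1 : K) + p) • H := by
  have hpK : (p : K) ≠ 0 := Nat.cast_ne_zero.2 hp
  rw [tr_apply]
  simp only [lift]
  rw [map_smul, opU_expand, smul_smul, add_smul, one_smul]
  congr 2
  rw [mul_assoc, ← mul_pow, inv_mul_cancel₀ hpK, one_pow, mul_one]

end CharZero

/-- Abstract level data for the `U4` argument. -/
structure LevelData (K : Type*) [Field K] (p : ℕ) (hp : p ≠ 0) (O : Subring K) where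
  /-- `q`-expansions of level-one forms of weight `k` -/
  L : ℕ → Submodule K (PowerSeries K)
  /-- pairs `(F, F^)` for forms `F` of weight `k` on `Γ₀(p)` -/
  Mp : ℕ → Submodule K (Pair K)
  one_mem : (1 : Pair K) ∈ Mp 0
  mul_mem : ∀ {k k' : ℕ} {x y : Pair K}, x ∈ Mp k → y ∈ Mp k' → x * y ∈ Mp (k + k')
  lift_mem : ∀ {k : ℕ} {H : PowerSeries K}, H ∈ L k → lift p hp k H ∈ Mp k
  tr_mem : ∀ {k : ℕ} {x : Pair K}, x ∈ Mp k → tr p k x ∈ L k
  E₄ : PowerSeries K
  E₆ : PowerSeries K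
  S₃ : PowerSeries K
  S₅ : PowerSeries K
  R : PowerSeries K
  E₄_mem : E₄ ∈ L 4
  E₆_mem : E₆ ∈ L 6
  S₅_int : S₅ ∈ intSeries O
  R_int : R ∈ intSeries O
  E₄_eq : E₄ = 1 + 240 * S₃
  E₆_eq : E₆ = 1 - 504 * S₅
  S₃_eq : S₃ = S₅ + 2 * R
  /-- the evaluation functional (value at `ρ` divided by `Δ(ρ)^(k/12)`) -/
  ev : ℕ → PowerSeries K → K
  ev_add : ∀ (k : ℕ) (A B : PowerSeries K), A ∈ L k → B ∈ L k → ev k (A + B) = ev k A + ev k B
  ev_smul : ∀ (k : ℕ) (c : K) (A : PowerSeries K), A ∈ L k → ev k (c • A) = c * ev k A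
  ev_E₄_mul : ∀ (k : ℕ) (X : PowerSeries K), X ∈ L k → ev (k + 4) (E₄ * X) = 0
  ev_int : ∀ (k : ℕ) (A : PowerSeries K), A ∈ L k → A ∈ intSeries O → ev k A ∈ O
  ev_E₆_pow : ∀ j : ℕ, ev (12 * j) (E₆ ^ (2 * j)) = (-1728) ^ j

namespace LevelData

variable {p : ℕ} {hp : p ≠ 0} {O : Subring K} (D : LevelData K p hp O)

theorem Mp_cast {k k' : ℕ} {x : Pair K} (h : x ∈ D.Mp k) (e : k = k') : x ∈ D.Mp k' := e ▸ h

theorem L_cast {k k' : ℕ} {x : PowerSeries K} (h : x ∈ D.L k) (e : k = k') : x ∈ D.L k' := e ▸ h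

theorem pow_mem {k : ℕ} {x : Pair K} (h : x ∈ D.Mp k) (n : ℕ) : x ^ n ∈ D.Mp (k * n) := by
  induction n with
  | zero => simpa using D.one_mem
  | succ n ih =>
    rw [pow_succ]
    exact D.Mp_cast (D.mul_mem ih h) (by ring)

theorem geom_mem {k : ℕ} {x y : Pair K} (hx : x ∈ D.Mp k) (hy : y ∈ D.Mp k) (n : ℕ) :
    ∑ i ∈ Finset.range n, x ^ i * y ^ (n - 1 - i) ∈ D.Mp (k * (n - 1)) := by
  refine Submodule.sum_mem _ fun i hi => ?_
  have hi' : i < n := Finset.mem_range.1 hi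
  refine D.Mp_cast (D.mul_mem (D.pow_mem hx i) (D.pow_mem hy (n - 1 - i))) ?_
  rw [← Nat.mul_add]
  congr 1
  omega

theorem intCast_mul_mem {k : ℕ} {x : Pair K} (h : x ∈ D.Mp k) (z : ℤ) :
    (z : Pair K) * x ∈ D.Mp k := by
  rw [← zsmul_eq_mul]
  exact zsmul_mem h z

theorem natCast_mul_mem {k : ℕ} {x : Pair K} (h : x ∈ D.Mp k) (n : ℕ) :
    (n : Pair K) * x ∈ D.Mp k := by
  rw [← nsmul_eq_mul]
  exact nsmul_mem h n

end LevelData

theorem mem_of_natCast_mul_mem [CharZero K] {M : Type*} [AddCommGroup M] [Module K M]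
    (N : Submodule K M) {n : ℕ} (hn : n ≠ 0) {x : M} (h : n • x ∈ N) : x ∈ N := by
  have hnK : (n : K) ≠ 0 := Nat.cast_ne_zero.2 hn
  have e : x = (n : K)⁻¹ • (n • x) := by
    rw [← Nat.cast_smul_eq_nsmul K n x, smul_smul, inv_mul_cancel₀ hnK, one_smul]
  rw [e]
  exact N.smul_mem _ h

end Fermat.Agent.S16.H373
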