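import Mathlib

/-!
# S16 / WP U4 (helper373): formal operators on power series

`opU p` (the operator `U_p`), integrality of power series with respect to a subring,
and the projection formula `U_p (V_p H * B) = H * U_p B` (`V_p = PowerSeries.expand p`).
-/

set_option autoImplicit false

namespace Fermat.Agent.S16.H373

open PowerSeries

variable {K : Type*} [Field K]

/-- The operator `U_p` on power series: `(U_p F)_n = F_{p n}`. -/
noncomputable def opU (p : ℕ) : PowerSeries K →ₗ[K] PowerSeries K where
  toFun F := PowerSeries.mk fun n => coeff (p * n) F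
  map_add' F G := by
    ext n
    simp [coeff_mk]
  map_smul' c F := by
    ext n
    simp [coeff_mk]

@[simp]
theorem coeff_opU (p n : ℕ) (F : PowerSeries K) : coeff n (opU p F) = coeff (p * n) F := by
  simp [opU, coeff_mk]

theorem opU_expand_mul (p : ℕ) (hp : p ≠ 0) (H B : PowerSeries K) :
    opU p (expand p hp H * B) = H * opU p B := by
  ext n
  rw [coeff_opU, coeff_mul, coeff_mul]
  -- reindex the antidiagonal of `p * n` along `(i, j) ↦ (p * i, p * j)`
  have hinj : Function.Injective (fun x : ℕ × ℕ => (p * x.1, p * x.2)) := by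
    intro x y hxy
    simp only [Prod.mk.injEq] at hxy
    exact Prod.ext (Nat.eq_of_mul_eq_mul_left (Nat.pos_of_ne_zero hp) hxy.1)
      (Nat.eq_of_mul_eq_mul_left (Nat.pos_of_ne_zero hp) hxy.2)
  have himg : ((Finset.HasAntidiagonal.antidiagonal n).map ⟨_, hinj⟩) ⊆ Finset.HasAntidiagonal.antidiagonal (p * n) := by
    intro x hx
    simp only [Finset.mem_map, Finset.HasAntidiagonal.mem_antidiagonal, Function.Embedding.coeFn_mk] at hx ⊢
    obtain ⟨y, hy, rfl⟩ := hx
    simp only
    rw [← mul_add, hy]
  rw [← Finset.sum_subset himg]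
  · rw [Finset.sum_map]
    refine Finset.sum_congr rfl fun x _ => ?_
    simp only [Function.Embedding.coeFn_mk, coeff_opU]
    rw [coeff_expand_mul]
  · intro x hx hx'
    simp only [Finset.HasAntidiagonal.mem_antidiagonal] at hx
    by_cases hd : p ∣ x.1
    · exfalso
      apply hx'
      obtain ⟨a, ha⟩ := hd
      have hd2 : p ∣ x.2 := by
        have : p ∣ x.1 + x.2 := ⟨n, hx⟩
        exact (Nat.dvd_add_right ⟨a, ha⟩).1 this
      obtain ⟨b, hb⟩ := hd2
      simp only [Finset.mem_map, Finset.HasAntidiagonal.mem_antidiagonal, Function.Embedding.coeFn_mk]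
      refine ⟨(a, b), ?_, ?_⟩
      · have : p * (a + b) = p * n := by rw [mul_add, ← ha, ← hb, hx]
        exact Nat.eq_of_mul_eq_mul_left (Nat.pos_of_ne_zero hp) this
      · exact Prod.ext ha.symm hb.symm
    · rw [coeff_expand_of_not_dvd p hp H hd, zero_mul]

theorem opU_expand (p : ℕ) (hp : p ≠ 0) (H : PowerSeries K) :
    opU p (expand p hp H) = H := by
  have := opU_expand_mul p hp H 1
  rw [mul_one] at this
  rw [this]
  have h1 : opU p (1 : PowerSeries K) = 1 := by
    ext n
    rw [coeff_opU, coeff_one, coeff_one]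
    have : p * n = 0 ↔ n = 0 := by
      constructor
      · intro h
        rcases Nat.mul_eq_zero.1 h with h | h
        · exact absurd h hp
        · exact h
      · rintro rfl
        simp
    simp only [this]
  rw [h1, mul_one]

theorem opU_one (p : ℕ) (hp : p ≠ 0) : opU p (1 : PowerSeries K) = 1 := by
  have := opU_expand p hp (1 : PowerSeries K)
  rwa [map_one] at this

theorem opU_intCast (p : ℕ) (hp : p ≠ 0) (z : ℤ) : opU p ((z : PowerSeries K)) = z := by
  have h : ((z : PowerSeries K)) = (z : K) • (1 : PowerSeries K) := by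
    rw [Int.cast_smul_eq_zsmul, zsmul_eq_mul, mul_one]
  rw [h, map_smul, opU_one p hp]

/-- Power series whose coefficients all lie in the subring `O`. -/
noncomputable def intSeries (O : Subring K) : Subring (PowerSeries K) :=
  (PowerSeries.map O.subtype).range

theorem mem_intSeries {O : Subring K} {F : PowerSeries K} :
    F ∈ intSeries O ↔ ∀ n, coeff n F ∈ O := by
  constructor
  · rintro ⟨F₀, rfl⟩ n
    rw [coeff_map]
    exact (coeff n F₀).2
  · intro h
    refine ⟨PowerSeries.mk fun n => ⟨coeff n F, h n⟩, ?_⟩
    ext n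
    simp [coeff_map, coeff_mk]

theorem opU_mem_intSeries {O : Subring K} (p : ℕ) {F : PowerSeries K} (hF : F ∈ intSeries O) :
    opU p F ∈ intSeries O := by
  rw [mem_intSeries] at hF ⊢
  intro n
  rw [coeff_opU]
  exact hF _

theorem expand_mem_intSeries {O : Subring K} (p : ℕ) (hp : p ≠ 0) {F : PowerSeries K}
    (hF : F ∈ intSeries O) : expand p hp F ∈ intSeries O := by
  rw [mem_intSeries] at hF ⊢
  intro n
  rw [coeff_expand]
  split_ifs
  · exact hF _
  · exact O.zero_mem

theorem smul_mem_intSeries {O : Subring K} {c : K} (hc : c ∈ O) {F : PowerSeries K}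
    (hF : F ∈ intSeries O) : c • F ∈ intSeries O := by
  rw [mem_intSeries] at hF ⊢
  intro n
  rw [coeff_smul]
  exact O.mul_mem hc (hF n)

end Fermat.Agent.S16.H373
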