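import Fermat.Agent.S16.H556.Basic
import Fermat.Agent.S16.H377.SkelFR
import Fermat.Agent.S16.H373.Series
import Fermat.Prelude.Thm_ModularFormClass_qCoeff_heckeU

/-!
# S16 / WP U4 (helper373): `q`-expansions of `V_p`, `U_p` at function level

* `qExpansion_Vp`     : `q`-expansion of `H(pz)` is `PowerSeries.expand p` of that of `H`;
* `qExpansion_heckeU` : `q`-expansion of `U_p G` is `opU p` of that of `G`;
* `eq_of_qExpansion_eq` : a form on `Γ₀(p)` is determined by its `q`-expansion.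
-/

set_option autoImplicit false
set_option linter.unusedSectionVars false
set_option linter.style.haveILetI false

noncomputable section

namespace Fermat.Agent.S16.H373

open UpperHalfPlane ModularForm CongruenceSubgroup MatrixGroups ModularFormClass
open Fermat.Agent.S20 (MF SF)
open Fermat.Agent.S16

local notation "𝕢" => Function.Periodic.qParam

theorem ana_top {k : ℤ} {F : ℍ → ℂ} (hF : F ∈ MF ⊤ k) :
    AnalyticAt ℂ (cuspFunction 1 F) 0 := by
  obtain ⟨F', rfl⟩ := Fermat.Agent.S20.C0h516.mem_MF_top_iff_exists.mp hF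
  exact ModularFormClass.analyticAt_cuspFunction_zero F' one_pos one_mem_strictPeriods_SL

variable (p : ℕ) [hpp : Fact p.Prime]

theorem MF_top_le (k : ℤ) : MF ⊤ k ≤ MF (Gamma0 p) k :=
  fun _ hf => ⟨hf.1, fun γ _ => hf.2.1 γ (Subgroup.mem_top _), hf.2.2⟩

theorem ana_p {k : ℤ} {F : ℍ → ℂ} (hF : F ∈ MF (Gamma0 p) k) :
    AnalyticAt ℂ (cuspFunction 1 F) 0 :=
  haveI : NeZero p := ⟨hpp.out.ne_zero⟩
  H556.analyticAt_of_mem_MF hF

theorem one_mem_strictPeriods_Gamma0 :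
    (1 : ℝ) ∈ (Gamma0 p : Subgroup (GL (Fin 2) ℝ)).strictPeriods := by
  simp [CongruenceSubgroup.strictPeriods_Gamma0]

theorem hasSum_q {k : ℤ} {F : ℍ → ℂ} (hF : F ∈ MF (Gamma0 p) k) (τ : ℍ) :
    HasSum (fun m : ℕ => (qExpansion 1 F).coeff m • 𝕢 1 τ ^ m) (F τ) := by
  haveI : NeZero p := ⟨hpp.out.ne_zero⟩
  obtain ⟨F', rfl⟩ := H377.FR.exists_bundled p hF
  exact UpperHalfPlane.hasSum_qExpansion one_pos
    (SlashInvariantFormClass.periodic_comp_ofComplex F' (one_mem_strictPeriods_Gamma0 p))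
    hF.1 (by simpa using hF.2.2 1) τ

/-- A form on `Γ₀(p)` is determined by its `q`-expansion. -/
theorem eq_of_qExpansion_eq {k k' : ℤ} {F G : ℍ → ℂ} (hF : F ∈ MF (Gamma0 p) k)
    (hG : G ∈ MF (Gamma0 p) k') (h : qExpansion 1 F = qExpansion 1 G) : F = G := by
  ext τ
  have h1 := hasSum_q p hF τ
  have h2 := hasSum_q p hG τ
  rw [h] at h1
  exact h1.unique h2

theorem qParam_mul (τ : ℍ) :
    𝕢 1 ((heckeDiagMatrix p • τ : ℍ) : ℂ) = 𝕢 1 (τ : ℂ) ^ p := by
  rw [coe_heckeDiagMatrix_smul hpp.out.ne_zero]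
  unfold Function.Periodic.qParam
  rw [← Complex.exp_nat_mul]
  congr 1
  push_cast
  ring

/-- `q`-expansion of `V_p H = H(pz)`. -/
theorem qExpansion_Vp {k : ℤ} {H : ℍ → ℂ} (hH : H ∈ MF ⊤ k) :
    qExpansion 1 (Vp p H) = PowerSeries.expand p hpp.out.ne_zero (qExpansion 1 H) := by
  have hp := hpp.out.ne_zero
  have hV := H377.FR.Vp_mem_MF p hH
  have hsum : ∀ τ : ℍ, HasSum (fun n : ℕ => PowerSeries.coeff n
      (PowerSeries.expand p hp (qExpansion 1 H)) • 𝕢 1 (τ : ℂ) ^ n) (Vp p H τ) := by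
    intro τ
    have h1 := hasSum_q p (MF_top_le p k hH) (heckeDiagMatrix p • τ)
    rw [qParam_mul] at h1
    have hinj : Function.Injective (fun m : ℕ => p * m) :=
      fun a b hab => Nat.eq_of_mul_eq_mul_left (Nat.pos_of_ne_zero hp) hab
    have h0 : ∀ x ∉ Set.range (fun m : ℕ => p * m), (fun n : ℕ => PowerSeries.coeff n
        (PowerSeries.expand p hp (qExpansion 1 H)) • 𝕢 1 (τ : ℂ) ^ n) x = 0 := by
      intro x hx
      have hx' : ¬ p ∣ x := fun ⟨m, hm⟩ => hx ⟨m, hm.symm⟩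
      simp only [PowerSeries.coeff_expand, if_neg hx', zero_smul]
    have e : ((fun n : ℕ => PowerSeries.coeff n
        (PowerSeries.expand p hp (qExpansion 1 H)) • 𝕢 1 (τ : ℂ) ^ n) ∘ fun m : ℕ => p * m) =
        fun m : ℕ => (qExpansion 1 H).coeff m • (𝕢 1 (τ : ℂ) ^ p) ^ m := by
      funext m
      simp only [Function.comp_apply, PowerSeries.coeff_expand_mul, pow_mul]
    have h2 := (hinj.hasSum_iff h0).mp (by rw [e]; exact h1)
    exact h2
  obtain ⟨V', hV'⟩ := H377.FR.exists_bundled p hV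
  rw [← hV'] at hsum ⊢
  ext n
  exact (ModularFormClass.qExpansion_coeff_unique one_pos (one_mem_strictPeriods_Gamma0 p)
    (f := V') hsum n).symm

/-- `q`-expansion of `U_p G`. -/
theorem qExpansion_heckeU {k : ℤ} {G : ℍ → ℂ} (hG : G ∈ MF (Gamma0 p) k) :
    qExpansion 1 (heckeU k p G) = opU p (qExpansion 1 G) := by
  obtain ⟨G', rfl⟩ := H377.FR.exists_bundled p hG
  ext n
  have h := ModularFormClass.qCoeff_heckeU (k := k) G' (one_mem_strictPeriods_Gamma0 p)
    hpp.out.ne_zero n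
  rw [coeff_opU, mul_comm p n]
  exact h

/-- `U_p` of a form which is the Fricke transform of a form: the trace shows it is modular. -/
theorem heckeU_hat_mem {k : ℤ} {F : ℍ → ℂ} (hF : F ∈ MF (Gamma0 p) k) :
    heckeU k p (hat p k F) ∈ MF (Gamma0 p) k := by
  have hp' : (p : ℂ) ≠ 0 := by exact_mod_cast hpp.out.ne_zero
  have h1 : Fermat.Agent.S16.tr p k F ∈ MF (Gamma0 p) k :=
    MF_top_le p k (H377.FR.tr_mem_MF p hF)
  have h2 : Fermat.Agent.S16.tr p k F - F ∈ MF (Gamma0 p) k := Submodule.sub_mem _ h1 hF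
  have h3 : Fermat.Agent.S16.tr p k F - F = ((p : ℂ) ^ (1 - k)) • heckeU k p (hat p k F) := by
    rw [Fermat.Agent.S16.tr]; abel
  rw [h3] at h2
  have h4 := (MF (Gamma0 p) k).smul_mem (((p : ℂ) ^ (1 - k))⁻¹) h2
  rwa [smul_smul, inv_mul_cancel₀ (zpow_ne_zero _ hp'), one_smul] at h4

/-- `q`-expansion of the trace. -/
theorem qExpansion_tr {k : ℤ} {F : ℍ → ℂ} (hF : F ∈ MF (Gamma0 p) k) :
    qExpansion 1 (Fermat.Agent.S16.tr p k F) =
      qExpansion 1 F + ((p : ℂ) ^ (1 - k)) • opU p (qExpansion 1 (hat p k F)) := by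
  have hU := heckeU_hat_mem p hF
  rw [Fermat.Agent.S16.tr, qExpansion_add (ana_p p hF)
    (ana_p p ((MF (Gamma0 p) k).smul_mem _ hU)), qExpansion_smul (ana_p p hU),
    qExpansion_heckeU p (H377.FR.hat_mem_MF p hF)]

end Fermat.Agent.S16.H373
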