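import Fermat.Agent.S16.H373.QExp
import Fermat.Agent.S16.H373.Main
import Fermat.Agent.S16.H257.L1Skel
import Fermat.Agent.S22T.DeltaInt

/-!
# S16 / WP U4 (helper373): instantiation of the abstract core

`U4` : the skeleton statement `Fermat.Agent.S16.Skel.U4` — for a prime `p ≡ 7 mod 8` there is
no weight 2 form on `Γ₀(p)` with odd integral constant term and all higher coefficients
divisible by `8`.
-/

set_option autoImplicit false
set_option linter.unusedSectionVars false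
set_option linter.style.haveILetI false

noncomputable section

namespace Fermat.Agent.S16.H373

open UpperHalfPlane ModularForm CongruenceSubgroup MatrixGroups ModularFormClass EisensteinSeries
open Fermat.Agent.S20 (MF SF)
open Fermat.Agent.S16
open scoped ArithmeticFunction.sigma

local notation "Δ" => ModularForm.discriminant

/-! ### Generalities on `MF` -/

theorem mul_mem_MF' {Γ : Subgroup SL(2, ℤ)} {a k : ℤ} {f g : ℍ → ℂ} (hf : f ∈ MF Γ a)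
    (hg : g ∈ MF Γ k) : f * g ∈ MF Γ (a + k) := by
  obtain ⟨hf1, hf2, hf3⟩ := hf
  obtain ⟨hg1, hg2, hg3⟩ := hg
  refine ⟨hf1.mul hg1, fun γ hγ => ?_, fun γ => ?_⟩
  · rw [ModularForm.mul_slash_SL2, hf2 γ hγ, hg2 γ hγ]
  · rw [ModularForm.mul_slash_SL2]
    exact (hf3 γ).mul (hg3 γ)

theorem one_mem_MF' {Γ : Subgroup SL(2, ℤ)} : (1 : ℍ → ℂ) ∈ MF Γ 0 := by
  refine ⟨mdifferentiable_const, fun γ _ => ModularForm.is_invariant_one γ, fun γ => ?_⟩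
  rw [ModularForm.is_invariant_one γ]
  exact Filter.const_boundedAtFilter _ (1 : ℂ)

theorem pow_mem_MF' {Γ : Subgroup SL(2, ℤ)} {f : ℍ → ℂ} {k : ℤ} (hf : f ∈ MF Γ k) (t : ℕ) :
    f ^ t ∈ MF Γ (k * t) := by
  induction t with
  | zero => simpa using one_mem_MF' (Γ := Γ)
  | succ t ih =>
    rw [pow_succ']
    have h := mul_mem_MF' hf ih
    have e : k + k * (t : ℤ) = k * ((t + 1 : ℕ) : ℤ) := by push_cast; ring
    exact e ▸ h

theorem MF_cast {Γ : Subgroup SL(2, ℤ)} {k k' : ℤ} {f : ℍ → ℂ} (h : f ∈ MF Γ k) (e : k = k') :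
    f ∈ MF Γ k' := e ▸ h

theorem E4_mem_MF : (E₄ : ℍ → ℂ) ∈ MF ⊤ 4 :=
  Fermat.Agent.S20.C0h516.mem_MF_top_iff_exists.mpr ⟨E₄, rfl⟩

theorem E6_mem_MF : (E₆ : ℍ → ℂ) ∈ MF ⊤ 6 :=
  Fermat.Agent.S20.C0h516.mem_MF_top_iff_exists.mpr ⟨E₆, rfl⟩

theorem qExpansion_pow' {k : ℤ} {F : ℍ → ℂ} (hF : F ∈ MF ⊤ k) (n : ℕ) :
    qExpansion 1 (F ^ n) = qExpansion 1 F ^ n := by
  induction n with
  | zero => simpa using qExpansion_one 1
  | succ n ih =>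
    rw [pow_succ, pow_succ, qExpansion_mul (ana_top (pow_mem_MF' hF n)) (ana_top hF), ih]

/-! ### The integral series -/

theorem two_dvd_aux (d : ℕ) : (2 : ℤ) ∣ (d : ℤ) ^ 3 - (d : ℤ) ^ 5 := by
  have h : ∀ x : ZMod 2, x ^ 3 - x ^ 5 = 0 := by decide
  have h2 := h (d : ZMod 2)
  have h3 : (((d : ℤ) ^ 3 - (d : ℤ) ^ 5 : ℤ) : ZMod 2) = 0 := by
    push_cast
    exact h2
  exact (ZMod.intCast_zmod_eq_zero_iff_dvd _ 2).mp h3

theorem two_dvd_sigma (n : ℕ) : (2 : ℤ) ∣ (σ 3 n : ℤ) - (σ 5 n : ℤ) := by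
  rw [ArithmeticFunction.sigma_apply, ArithmeticFunction.sigma_apply]
  push_cast
  rw [← Finset.sum_sub_distrib]
  exact Finset.dvd_sum fun d _ => two_dvd_aux d

/-- `(∑ σ₃(n) qⁿ - ∑ σ₅(n) qⁿ)/2`. -/
def rSeries : PowerSeries ℤ :=
  PowerSeries.mk fun n => if n = 0 then 0 else ((σ 3 n : ℤ) - (σ 5 n : ℤ)) / 2

theorem sigmaSeries_three_eq :
    Fermat.Agent.S22T.sigmaSeries 3 = Fermat.Agent.S22T.sigmaSeries 5 + 2 * rSeries := by
  ext n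
  have h2 : (2 : PowerSeries ℤ) = PowerSeries.C (2 : ℤ) := by rw [map_ofNat]
  rw [map_add, h2, PowerSeries.coeff_C_mul]
  simp only [rSeries, Fermat.Agent.S22T.sigmaSeries, PowerSeries.coeff_mk]
  split_ifs with hn
  · simp
  · rw [Int.mul_ediv_cancel' (two_dvd_sigma n)]
    ring

/-- The subring `ℤ ⊆ ℂ`. -/
abbrev OZ : Subring ℂ := (Int.castRingHom ℂ).range

theorem map_mem_intSeries (X : PowerSeries ℤ) :
    X.map (Int.castRingHom ℂ) ∈ intSeries OZ := by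
  rw [mem_intSeries]
  intro n
  rw [PowerSeries.coeff_map]
  exact ⟨_, rfl⟩

theorem two_inv_not_mem : (2 : ℂ)⁻¹ ∉ OZ := by
  rintro ⟨m, hm⟩
  have h : (2 : ℂ) * (m : ℂ) = 1 := by
    have hm' : (m : ℂ) = (2 : ℂ)⁻¹ := hm
    rw [hm']
    norm_num
  have h' : (2 : ℤ) * m = 1 := by exact_mod_cast h
  omega

/-! ### The spaces of `q`-expansions -/

/-- `q`-expansions of level one forms of weight `k`. -/
def Lk (k : ℕ) : Submodule ℂ (PowerSeries ℂ) where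
  carrier := {A | ∃ F ∈ MF (⊤ : Subgroup SL(2, ℤ)) (k : ℤ), qExpansion 1 F = A}
  zero_mem' := ⟨0, Submodule.zero_mem _, qExpansion_zero 1⟩
  add_mem' := by
    rintro _ _ ⟨F, hF, rfl⟩ ⟨G, hG, rfl⟩
    exact ⟨F + G, Submodule.add_mem _ hF hG, qExpansion_add (ana_top hF) (ana_top hG)⟩
  smul_mem' := by
    rintro c _ ⟨F, hF, rfl⟩
    exact ⟨c • F, Submodule.smul_mem _ c hF, qExpansion_smul (ana_top hF) c⟩

theorem mem_Lk {k : ℕ} {A : PowerSeries ℂ} :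
    A ∈ Lk k ↔ ∃ F ∈ MF (⊤ : Subgroup SL(2, ℤ)) (k : ℤ), qExpansion 1 F = A := Iff.rfl

variable (p : ℕ) [hpp : Fact p.Prime]

theorem hat_zero' (k : ℤ) : hat p k (0 : ℍ → ℂ) = 0 := by
  have h := H377.FR.hat_smul p k 0 (0 : ℍ → ℂ)
  rwa [zero_smul, zero_smul] at h

/-- Pairs `(q-expansion of F, q-expansion of F^)` for `F` of weight `k` on `Γ₀(p)`. -/
def Mpk (k : ℕ) : Submodule ℂ (Pair ℂ) where
  carrier := {x | ∃ F ∈ MF (Gamma0 p) (k : ℤ),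
    qExpansion 1 F = x.1 ∧ qExpansion 1 (hat p k F) = x.2}
  zero_mem' := ⟨0, Submodule.zero_mem _, qExpansion_zero 1, by
    rw [hat_zero']; exact qExpansion_zero 1⟩
  add_mem' := by
    rintro x y ⟨F, hF, hF1, hF2⟩ ⟨G, hG, hG1, hG2⟩
    refine ⟨F + G, Submodule.add_mem _ hF hG, ?_, ?_⟩
    · rw [qExpansion_add (ana_p p hF) (ana_p p hG), hF1, hG1]; rfl
    · rw [H377.FR.hat_add, qExpansion_add (ana_p p (H377.FR.hat_mem_MF p hF))
        (ana_p p (H377.FR.hat_mem_MF p hG)), hF2, hG2]; rfl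
  smul_mem' := by
    rintro c x ⟨F, hF, hF1, hF2⟩
    refine ⟨c • F, Submodule.smul_mem _ c hF, ?_, ?_⟩
    · rw [qExpansion_smul (ana_p p hF), hF1]; rfl
    · rw [H377.FR.hat_smul, qExpansion_smul (ana_p p (H377.FR.hat_mem_MF p hF)), hF2]; rfl

theorem mem_Mpk {k : ℕ} {x : Pair ℂ} :
    x ∈ Mpk p k ↔ ∃ F ∈ MF (Gamma0 p) (k : ℤ),
      qExpansion 1 F = x.1 ∧ qExpansion 1 (hat p k F) = x.2 := Iff.rfl

theorem hat_one' : hat p 0 (1 : ℍ → ℂ) = 1 := by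
  ext z
  rw [H377.FR.hat_apply]
  simp

theorem one_mem_Mpk : (1 : Pair ℂ) ∈ Mpk p 0 := by
  refine ⟨1, one_mem_MF', ?_, ?_⟩
  · rw [qExpansion_one]; rfl
  · rw [Nat.cast_zero, hat_one', qExpansion_one]; rfl

theorem mul_mem_Mpk {k k' : ℕ} {x y : Pair ℂ} (hx : x ∈ Mpk p k) (hy : y ∈ Mpk p k') :
    x * y ∈ Mpk p (k + k') := by
  obtain ⟨F, hF, hF1, hF2⟩ := hx
  obtain ⟨G, hG, hG1, hG2⟩ := hy
  refine ⟨F * G, MF_cast (mul_mem_MF' hF hG) (by push_cast; rfl), ?_, ?_⟩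
  · rw [qExpansion_mul (ana_p p hF) (ana_p p hG), hF1, hG1]; rfl
  · rw [Nat.cast_add, H377.FR.hat_mul, qExpansion_mul (ana_p p (H377.FR.hat_mem_MF p hF))
      (ana_p p (H377.FR.hat_mem_MF p hG)), hF2, hG2]; rfl

theorem lift_mem_Mpk {k : ℕ} {H : PowerSeries ℂ} (hH : H ∈ Lk k) :
    lift p hpp.out.ne_zero k H ∈ Mpk p k := by
  obtain ⟨F, hF, rfl⟩ := hH
  refine ⟨F, MF_top_le p k hF, rfl, ?_⟩
  rw [H377.FR.hat_levelOne p hF, qExpansion_smul (ana_p p (H377.FR.Vp_mem_MF p hF)),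
    qExpansion_Vp p hF, zpow_natCast]
  rfl

theorem tr_mem_Lk {k : ℕ} {x : Pair ℂ} (hx : x ∈ Mpk p k) : tr p k x ∈ Lk k := by
  obtain ⟨F, hF, hF1, hF2⟩ := hx
  have hp' : (p : ℂ) ≠ 0 := by exact_mod_cast hpp.out.ne_zero
  refine ⟨Fermat.Agent.S16.tr p k F, H377.FR.tr_mem_MF p hF, ?_⟩
  rw [qExpansion_tr p hF, tr_apply, hF1, hF2]
  congr 2
  rw [zpow_sub₀ hp', zpow_one, zpow_natCast, div_eq_mul_inv, inv_pow]

/-! ### The evaluation functional -/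

/-- Level one forms are determined by their `q`-expansions. -/
theorem eq_of_qExpansion_eq_top {k k' : ℤ} {F G : ℍ → ℂ} (hF : F ∈ MF ⊤ k) (hG : G ∈ MF ⊤ k')
    (h : qExpansion 1 F = qExpansion 1 G) : F = G :=
  haveI : Fact (Nat.Prime 2) := ⟨Nat.prime_two⟩
  eq_of_qExpansion_eq 2 (MF_top_le 2 k hF) (MF_top_le 2 k' hG) h

open Classical in
/-- `A ↦ F(ρ)/Δ(ρ)^(k/12)` where `F` is the level one form of weight `k` with `q`-expansion `A`
(and `0` if `12 ∤ k`). -/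
def evFun (ρ : ℍ) (k : ℕ) (A : PowerSeries ℂ) : ℂ :=
  if h : 12 ∣ k ∧ ∃ F ∈ MF (⊤ : Subgroup SL(2, ℤ)) (k : ℤ), qExpansion 1 F = A then
    (Classical.choose h.2) ρ / (Δ : ℍ → ℂ) ρ ^ (k / 12) else 0

theorem evFun_eq (ρ : ℍ) {k : ℕ} (h12 : 12 ∣ k) {F : ℍ → ℂ}
    (hF : F ∈ MF (⊤ : Subgroup SL(2, ℤ)) (k : ℤ)) :
    evFun ρ k (qExpansion 1 F) = F ρ / (Δ : ℍ → ℂ) ρ ^ (k / 12) := by
  have h : 12 ∣ k ∧ ∃ F' ∈ MF (⊤ : Subgroup SL(2, ℤ)) (k : ℤ),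
      qExpansion 1 F' = qExpansion 1 F := ⟨h12, F, hF, rfl⟩
  rw [evFun, dif_pos h]
  have hs := Classical.choose_spec h.2
  rw [eq_of_qExpansion_eq_top hs.1 hF hs.2]

theorem evFun_of_not_dvd (ρ : ℍ) {k : ℕ} (h12 : ¬ 12 ∣ k) (A : PowerSeries ℂ) :
    evFun ρ k A = 0 := by
  rw [evFun, dif_neg (fun h => h12 h.1)]

theorem evFun_add (ρ : ℍ) (k : ℕ) (A B : PowerSeries ℂ) (hA : A ∈ Lk k) (hB : B ∈ Lk k) :
    evFun ρ k (A + B) = evFun ρ k A + evFun ρ k B := by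
  by_cases h12 : 12 ∣ k
  · obtain ⟨F, hF, rfl⟩ := hA
    obtain ⟨G, hG, rfl⟩ := hB
    rw [← qExpansion_add (ana_top hF) (ana_top hG), evFun_eq ρ h12 (Submodule.add_mem _ hF hG),
      evFun_eq ρ h12 hF, evFun_eq ρ h12 hG, Pi.add_apply, add_div]
  · rw [evFun_of_not_dvd ρ h12, evFun_of_not_dvd ρ h12, evFun_of_not_dvd ρ h12, add_zero]

theorem evFun_smul (ρ : ℍ) (k : ℕ) (c : ℂ) (A : PowerSeries ℂ) (hA : A ∈ Lk k) :
    evFun ρ k (c • A) = c * evFun ρ k A := by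
  by_cases h12 : 12 ∣ k
  · obtain ⟨F, hF, rfl⟩ := hA
    rw [← qExpansion_smul (ana_top hF), evFun_eq ρ h12 (Submodule.smul_mem _ c hF),
      evFun_eq ρ h12 hF, Pi.smul_apply, smul_eq_mul, mul_div_assoc]
  · rw [evFun_of_not_dvd ρ h12, evFun_of_not_dvd ρ h12, mul_zero]

theorem evFun_E4_mul (ρ : ℍ) (hρ : (E₄ : ℍ → ℂ) ρ = 0) (k : ℕ) (X : PowerSeries ℂ)
    (hX : X ∈ Lk k) : evFun ρ (k + 4) (qExpansion 1 (E₄ : ℍ → ℂ) * X) = 0 := by
  by_cases h12 : 12 ∣ k + 4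
  · obtain ⟨F, hF, rfl⟩ := hX
    have hmem : (E₄ : ℍ → ℂ) * F ∈ MF (⊤ : Subgroup SL(2, ℤ)) ((k + 4 : ℕ) : ℤ) :=
      MF_cast (mul_mem_MF' E4_mem_MF hF) (by push_cast; ring)
    rw [← qExpansion_mul (ana_top E4_mem_MF) (ana_top hF), evFun_eq ρ h12 hmem, Pi.mul_apply,
      hρ, zero_mul, zero_div]
  · exact evFun_of_not_dvd ρ h12 _

theorem evFun_int (ρ : ℍ) (hρ : (E₄ : ℍ → ℂ) ρ = 0) (k : ℕ) (A : PowerSeries ℂ)
    (hA : A ∈ Lk k) (hint : A ∈ intSeries OZ) : evFun ρ k A ∈ OZ := by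
  by_cases h12 : 12 ∣ k
  · obtain ⟨j, rfl⟩ := h12
    obtain ⟨F, hF, rfl⟩ := hA
    rw [evFun_eq ρ (Dvd.intro j rfl) hF, Nat.mul_div_cancel_left j (by norm_num)]
    have hF' : F ∈ MF (⊤ : Subgroup SL(2, ℤ)) (12 * (j : ℤ)) :=
      MF_cast hF (by push_cast; ring)
    have hall : IntAll F := by
      intro n
      obtain ⟨m, hm⟩ := mem_intSeries.mp hint n
      exact ⟨m, hm.symm⟩
    obtain ⟨m, hm⟩ := H257.evRho_int ρ hρ j hF' hall
    have hne : (Δ : ℍ → ℂ) ρ ^ j ≠ 0 := pow_ne_zero _ (ModularForm.discriminant_ne_zero ρ)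
    refine ⟨m, ?_⟩
    rw [hm, mul_div_assoc, div_self hne, mul_one]
    rfl
  · rw [evFun_of_not_dvd ρ h12]
    exact OZ.zero_mem

theorem evFun_E6_pow (ρ : ℍ) (hρ : (E₄ : ℍ → ℂ) ρ = 0) (j : ℕ) :
    evFun ρ (12 * j) (qExpansion 1 (E₆ : ℍ → ℂ) ^ (2 * j)) = (-1728) ^ j := by
  have hmem : (E₆ : ℍ → ℂ) ^ (2 * j) ∈ MF (⊤ : Subgroup SL(2, ℤ)) ((12 * j : ℕ) : ℤ) :=
    MF_cast (pow_mem_MF' E6_mem_MF (2 * j)) (by push_cast; ring)
  have hne : (Δ : ℍ → ℂ) ρ ^ j ≠ 0 := pow_ne_zero _ (ModularForm.discriminant_ne_zero ρ)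
  rw [← qExpansion_pow' E6_mem_MF, evFun_eq ρ (Dvd.intro j rfl) hmem,
    Nat.mul_div_cancel_left j (by norm_num), Pi.pow_apply, pow_mul,
    H257.E6_sq_of_E4_eq_zero hρ, mul_pow, mul_div_assoc, div_self hne, mul_one]

/-! ### The level data and the final statement -/

theorem qExpansion_E4_eq : qExpansion 1 (E₄ : ℍ → ℂ) =
    1 + 240 * (Fermat.Agent.S22T.sigmaSeries 3).map (Int.castRingHom ℂ) := by
  rw [Fermat.Agent.S22T.qExpansion_E4, map_add, map_mul, map_one, map_ofNat]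

theorem qExpansion_E6_eq : qExpansion 1 (E₆ : ℍ → ℂ) =
    1 - 504 * (Fermat.Agent.S22T.sigmaSeries 5).map (Int.castRingHom ℂ) := by
  rw [Fermat.Agent.S22T.qExpansion_E6, map_sub, map_mul, map_one, map_ofNat]

theorem sigmaSeries_map_eq :
    (Fermat.Agent.S22T.sigmaSeries 3).map (Int.castRingHom ℂ) =
      (Fermat.Agent.S22T.sigmaSeries 5).map (Int.castRingHom ℂ) +
        2 * rSeries.map (Int.castRingHom ℂ) := by
  rw [sigmaSeries_three_eq, map_add, map_mul, map_ofNat]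

/-- The level data attached to `Γ₀(p)` and a zero `ρ` of `E₄`. -/
def levelData (ρ : ℍ) (hρ : (E₄ : ℍ → ℂ) ρ = 0) : LevelData ℂ p hpp.out.ne_zero OZ where
  L := Lk
  Mp := Mpk p
  one_mem := one_mem_Mpk p
  mul_mem := fun hx hy => mul_mem_Mpk p hx hy
  lift_mem := fun hH => lift_mem_Mpk p hH
  tr_mem := fun hx => tr_mem_Lk p hx
  E₄ := qExpansion 1 (ModularForm.E₄ : ℍ → ℂ)
  E₆ := qExpansion 1 (ModularForm.E₆ : ℍ → ℂ)
  S₃ := (Fermat.Agent.S22T.sigmaSeries 3).map (Int.castRingHom ℂ)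
  S₅ := (Fermat.Agent.S22T.sigmaSeries 5).map (Int.castRingHom ℂ)
  R := rSeries.map (Int.castRingHom ℂ)
  E₄_mem := ⟨_, E4_mem_MF, rfl⟩
  E₆_mem := ⟨_, E6_mem_MF, rfl⟩
  S₅_int := map_mem_intSeries _
  R_int := map_mem_intSeries _
  E₄_eq := qExpansion_E4_eq
  E₆_eq := qExpansion_E6_eq
  S₃_eq := sigmaSeries_map_eq
  ev := evFun ρ
  ev_add := evFun_add ρ
  ev_smul := evFun_smul ρ
  ev_E₄_mul := evFun_E4_mul ρ hρ
  ev_int := evFun_int ρ hρ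
  ev_E₆_pow := evFun_E6_pow ρ hρ

/-- **WP U4** (exact skeleton shape): for `p ≡ 7 mod 8` there is no weight 2 form on `Γ₀(p)`
with odd constant term and all higher `q`-coefficients divisible by `8`. -/
theorem U4 (p : ℕ) [Fact p.Prime] (hp8 : p % 8 = 7)
    {G : ℍ → ℂ} (hG : G ∈ MF (Gamma0 p) 2) (s : ℤ) (hs : Odd s)
    (h0 : qCoeff G 0 = (s : ℂ))
    (hcong : ∀ k : ℕ, 1 ≤ k → ∃ m : ℤ, qCoeff G k = 8 * (m : ℂ)) : False := by
  obtain ⟨ρ, hρ⟩ := H257.exists_rho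
  choose! m hm using hcong
  have h8 : 8 ∣ p + 1 := by omega
  set Hs : PowerSeries ℂ := PowerSeries.mk fun n => if n = 0 then 0 else (m n : ℂ) with hHs
  have hH : Hs ∈ intSeries OZ := by
    rw [mem_intSeries]
    intro n
    rw [hHs, PowerSeries.coeff_mk]
    split_ifs
    · exact OZ.zero_mem
    · exact ⟨m n, rfl⟩
  have hGeq : qExpansion 1 G = (s : PowerSeries ℂ) + 8 * Hs := by
    ext n
    have h8' : (8 : PowerSeries ℂ) = PowerSeries.C (8 : ℂ) := by rw [map_ofNat]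
    have hs' : (s : PowerSeries ℂ) = PowerSeries.C (s : ℂ) := by rw [map_intCast]
    rw [map_add, h8', PowerSeries.coeff_C_mul, hs', PowerSeries.coeff_C, hHs,
      PowerSeries.coeff_mk]
    by_cases hn : n = 0
    · subst hn
      rw [if_pos rfl, if_pos rfl, mul_zero, add_zero]
      exact h0
    · rw [if_neg hn, if_neg hn, zero_add]
      exact hm n (Nat.one_le_iff_ne_zero.mpr hn)
  have hmem : ((qExpansion 1 G, -(p : PowerSeries ℂ) * opU p (qExpansion 1 G)) : Pair ℂ) ∈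
      Mpk p 2 := by
    refine ⟨G, hG, rfl, ?_⟩
    have e : (((2 : ℕ) : ℤ)) = 2 := rfl
    rw [e, H377.FR.hat_two p hG, qExpansion_smul (ana_p p (H377.FR.heckeU_two_mem p hG)),
      qExpansion_heckeU p hG, PowerSeries.smul_eq_C_mul, map_neg, map_natCast]
  exact u4_core (levelData p ρ hρ) h8 two_inv_not_mem s hs (qExpansion 1 G) Hs hH hGeq hmem

end Fermat.Agent.S16.H373
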